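import Mathlib
import Fermat.Agent.H6.DS.Interfaces

/-!
# P-DS row DS-2A (helper80): basics of the Weierstrass zeta function of `ℤ z + ℤ`

* `Fermat.Agent.H80.DS.zetaSummable : Fermat.Agent.H6.DS.ZetaSummableStatement`
* `Fermat.Agent.H80.DS.zetaQuasiPeriod : Fermat.Agent.H6.DS.ZetaQuasiPeriodStatement`
-/

set_option autoImplicit false

open Filter Topology

namespace Fermat.Agent.H80.DS

open Fermat.Agent.H6.DS

/-- The period pair `(z, 1)` for `z` in the upper half plane. -/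
noncomputable def zpair (z : ℂ) (hz : 0 < z.im) : PeriodPair where
  ω₁ := z
  ω₂ := 1
  indep := by
    rw [LinearIndependent.pair_iff]
    intro a b h
    have him := congrArg Complex.im h
    have hre := congrArg Complex.re h
    simp at him hre
    have ha : a = 0 := by
      rcases him with h1 | h1
      · exact h1
      · exact absurd h1 hz.ne'
    subst ha
    simp at hre
    exact ⟨rfl, hre⟩

@[simp] lemma zpair_ω₁ (z : ℂ) (hz : 0 < z.im) : (zpair z hz).ω₁ = z := rfl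
@[simp] lemma zpair_ω₂ (z : ℂ) (hz : 0 < z.im) : (zpair z hz).ω₂ = 1 := rfl

/-- Summand of zeta indexed by lattice points. -/
noncomputable def ztL (L : PeriodPair) (u : ℂ) (l : L.lattice) : ℂ :=
  if (l : ℂ) = 0 then 1 / u else 1 / (u - l) + 1 / (l : ℂ) + u / (l : ℂ) ^ 2

/-- The zeta function as a sum over the lattice. -/
noncomputable def zetaL (L : PeriodPair) (u : ℂ) : ℂ := ∑' l : L.lattice, ztL L u l

/-- The bijection `(Fin 2 → ℤ) ≃ lattice`. -/
noncomputable def latEquiv (z : ℂ) (hz : 0 < z.im) : (Fin 2 → ℤ) ≃ (zpair z hz).lattice :=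
  ((LinearEquiv.finTwoArrow ℤ ℤ).toEquiv).trans (zpair z hz).latticeEquivProd.symm.toEquiv

lemma latEquiv_coe (z : ℂ) (hz : 0 < z.im) (v : Fin 2 → ℤ) :
    ((latEquiv z hz v : (zpair z hz).lattice) : ℂ) = latPt z v := by
  simp [latEquiv, PeriodPair.latticeEquiv_symm_apply, latPt]

lemma latPt_eq_zero_iff (z : ℂ) (hz : 0 < z.im) (v : Fin 2 → ℤ) : latPt z v = 0 ↔ v = 0 := by
  constructor
  · intro h
    have h0 : ((latEquiv z hz v : (zpair z hz).lattice) : ℂ) = ((0 : (zpair z hz).lattice) : ℂ) := by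
      rw [latEquiv_coe, h]; rfl
    have h1 : latEquiv z hz v = 0 := Subtype.ext h0
    have h2 : latEquiv z hz 0 = 0 := by
      apply Subtype.ext
      rw [latEquiv_coe]
      simp [latPt]
    exact (latEquiv z hz).injective (h1.trans h2.symm)
  · rintro rfl
    simp [latPt]

lemma zetaTerm_eq (z : ℂ) (hz : 0 < z.im) (u : ℂ) (v : Fin 2 → ℤ) :
    zetaTerm z u v = ztL (zpair z hz) u (latEquiv z hz v) := by
  unfold zetaTerm ztL
  rw [latEquiv_coe]
  by_cases hv : v = 0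
  · rw [if_pos hv, if_pos ((latPt_eq_zero_iff z hz v).2 hv)]
  · rw [if_neg hv, if_neg (fun h => hv ((latPt_eq_zero_iff z hz v).1 h))]

lemma wzeta_eq (z : ℂ) (hz : 0 < z.im) (u : ℂ) : wzeta z u = zetaL (zpair z hz) u := by
  unfold wzeta zetaL
  rw [← (latEquiv z hz).tsum_eq]
  exact tsum_congr fun v => zetaTerm_eq z hz u v


/-! ### Bounds and locally uniform convergence -/

variable (L : PeriodPair)

lemma ztL_eq_div (u : ℂ) (l : L.lattice) (hl : (l : ℂ) ≠ 0) (hu : u ≠ l) :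
    ztL L u l = u ^ 2 / ((l : ℂ) ^ 2 * (u - l)) := by
  unfold ztL
  rw [if_neg hl]
  have h1 : u - (l : ℂ) ≠ 0 := sub_ne_zero.2 hu
  field_simp
  ring

lemma ztL_bound (r : ℝ) (hr : 0 < r) (x : ℂ) (hx : ‖x‖ < r) (l : L.lattice)
    (h : 2 * r ≤ ‖(l : ℂ)‖) : ‖ztL L x l‖ ≤ 2 * r ^ 2 * ‖(l : ℂ)‖ ^ (-3 : ℝ) := by
  have hlpos : 0 < ‖(l : ℂ)‖ := by linarith
  have hl : (l : ℂ) ≠ 0 := norm_pos_iff.1 hlpos
  have hxl : x ≠ l := by rintro rfl; linarith
  rw [ztL_eq_div L x l hl hxl]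
  have h2 : ‖(l : ℂ)‖ / 2 ≤ ‖x - l‖ := by
    have := norm_sub_norm_le (l : ℂ) x
    rw [norm_sub_rev] at this
    linarith
  have h3 : (0 : ℝ) < ‖(l : ℂ)‖ ^ 2 * (‖(l : ℂ)‖ / 2) := by positivity
  have e1 : ‖x ^ 2 / ((l : ℂ) ^ 2 * (x - l))‖ = ‖x‖ ^ 2 / (‖(l : ℂ)‖ ^ 2 * ‖x - l‖) := by
    simp
  rw [e1]
  have e2 : 2 * r ^ 2 * ‖(l : ℂ)‖ ^ (-3 : ℝ) = r ^ 2 / (‖(l : ℂ)‖ ^ 2 * (‖(l : ℂ)‖ / 2)) := by
    rw [Real.rpow_neg hlpos.le]
    have : ‖(l : ℂ)‖ ^ (3 : ℝ) = ‖(l : ℂ)‖ ^ 3 := by norm_cast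
    rw [this]
    field_simp
  rw [e2]
  gcongr

lemma hasSumLocallyUniformly_zetaL :
    HasSumLocallyUniformly (fun (l : L.lattice) (x : ℂ) => ztL L x l) (zetaL L) := by
  refine L.hasSumLocallyUniformly_aux (u := fun r l => 2 * r ^ 2 * ‖(l : ℂ)‖ ^ (-3 : ℝ)) _
    (fun _ _ => ?_) fun r hr => Filter.eventually_atTop.mpr ⟨2 * r, ?_⟩
  · exact (ZLattice.summable_norm_rpow _ _ (by simp; norm_num)).mul_left _
  · rintro _ h x hx l rfl
    exact ztL_bound L r hr x hx l h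

lemma hasSum_zetaL (u : ℂ) : HasSum (fun l : L.lattice => ztL L u l) (zetaL L u) :=
  (hasSumLocallyUniformly_zetaL L).hasSum

lemma finite_lattice_norm_lt (R : ℝ) : {l : L.lattice | ‖(l : ℂ)‖ < R}.Finite := by
  refine (isCompact_iff_finite.mp (isCompact_closedBall (0 : L.lattice) R)).subset ?_
  intro l hl
  simp only [Metric.mem_closedBall, dist_zero_right]
  exact le_of_lt hl

lemma summable_norm_ztL (u : ℂ) : Summable (fun l : L.lattice => ‖ztL L u l‖) := by
  have hr : (0 : ℝ) < ‖u‖ + 1 := by positivity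
  have hs : Summable (fun l : L.lattice => 2 * (‖u‖ + 1) ^ 2 * ‖(l : ℂ)‖ ^ (-3 : ℝ)) :=
    (ZLattice.summable_norm_rpow _ _ (by simp; norm_num)).mul_left _
  refine Summable.of_norm_bounded_eventually hs ?_
  rw [Filter.eventually_cofinite]
  refine (finite_lattice_norm_lt L (2 * (‖u‖ + 1))).subset ?_
  intro l hl
  simp only [Set.mem_ofPred_eq] at hl ⊢
  by_contra hcon
  push Not at hcon
  apply hl
  rw [norm_norm]
  exact ztL_bound L _ hr u (by linarith) l hcon


/-- (DS-2A1) summability of the zeta summands. -/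
theorem zetaSummable : ZetaSummableStatement := by
  intro z hz u
  have h := summable_norm_ztL (zpair z hz) u
  have h2 := (latEquiv z hz).summable_iff.2 h
  refine h2.congr fun v => ?_
  simp only [Function.comp_apply]
  rw [zetaTerm_eq z hz u v]

/-! ### The derivative of zeta is `-℘` -/

lemma ztL_differentiableAt (l : L.lattice) (x : ℂ) (hx : x ∉ L.lattice) :
    DifferentiableAt ℂ (fun y => ztL L y l) x := by
  unfold ztL
  by_cases hl : (l : ℂ) = 0
  · simp only [hl, if_true]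
    have hx0 : x ≠ 0 := by rintro rfl; exact hx (zero_mem _)
    exact DifferentiableAt.div (by fun_prop) (by fun_prop) hx0
  · simp only [hl, if_false]
    have hxl : x - (l : ℂ) ≠ 0 := by
      intro h
      apply hx
      rw [sub_eq_zero.1 h]
      exact l.2
    exact DifferentiableAt.add
      (DifferentiableAt.add (DifferentiableAt.div (by fun_prop) (by fun_prop) hxl) (by fun_prop))
      (by fun_prop)

lemma ztL_hasDerivAt (l : L.lattice) (x : ℂ) (hx : x ∉ L.lattice) :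
    HasDerivAt (fun y => ztL L y l) (-(1 / (x - l) ^ 2 - 1 / (l : ℂ) ^ 2)) x := by
  unfold ztL
  by_cases hl : (l : ℂ) = 0
  · simp only [hl, if_true]
    have hx0 : x ≠ 0 := by rintro rfl; exact hx (zero_mem _)
    have h := (hasDerivAt_const x (1 : ℂ)).div (hasDerivAt_id' x) hx0
    refine h.congr_deriv ?_
    simp
    field_simp
  · simp only [hl, if_false]
    have hxl : x - (l : ℂ) ≠ 0 := by
      intro h
      apply hx
      rw [sub_eq_zero.1 h]
      exact l.2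
    have h1 : HasDerivAt (fun y : ℂ => y - (l : ℂ)) 1 x := (hasDerivAt_id' x).sub_const _
    have h2 := (hasDerivAt_const x (1 : ℂ)).div h1 hxl
    have h3 : HasDerivAt (fun y : ℂ => y / (l : ℂ) ^ 2) (1 / (l : ℂ) ^ 2) x :=
      (hasDerivAt_id' x).div_const _
    have h4 := (h2.add_const (1 / (l : ℂ))).add h3
    refine h4.congr_deriv ?_
    simp
    field_simp
    ring

lemma isOpen_compl_lattice : IsOpen ((L.lattice : Set ℂ)ᶜ) := L.isClosed_lattice.isOpen_compl

lemma eqOn_deriv_zetaL :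
    Set.EqOn (deriv (zetaL L)) (fun x => - L.weierstrassP x) ((L.lattice : Set ℂ)ᶜ) := by
  refine ((hasSumLocallyUniformly_zetaL L).tendstoLocallyUniformlyOn.deriv
    (.of_forall fun s => ?_) (isOpen_compl_lattice L)).unique ?_
  · refine .fun_sum fun i _ => ?_
    intro x hx
    exact (ztL_differentiableAt L i x hx).differentiableWithinAt
  · have hP := (L.hasSumLocallyUniformly_weierstrassP).tendstoLocallyUniformlyOn
      (s := ((L.lattice : Set ℂ)ᶜ))
    refine hP.neg.congr ?_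
    intro s x hx
    simp only [Function.comp_apply, Pi.neg_apply]
    rw [deriv_fun_sum (fun i _ => ztL_differentiableAt L i x hx)]
    rw [← Finset.sum_neg_distrib]
    refine Finset.sum_congr rfl fun i _ => ?_
    exact ((ztL_hasDerivAt L i x hx).deriv).symm

lemma differentiableOn_zetaL : DifferentiableOn ℂ (zetaL L) ((L.lattice : Set ℂ)ᶜ) := by
  refine (hasSumLocallyUniformly_zetaL L).tendstoLocallyUniformlyOn.differentiableOn
    (.of_forall fun s => ?_) (isOpen_compl_lattice L)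
  refine .fun_sum fun i _ => ?_
  intro x hx
  exact (ztL_differentiableAt L i x hx).differentiableWithinAt


/-! ### Oddness and quasi-periodicity -/

lemma ztL_neg (u : ℂ) (l : L.lattice) : ztL L (-u) (-l) = - ztL L u l := by
  unfold ztL
  by_cases hl : (l : ℂ) = 0
  · have hl' : ((-l : L.lattice) : ℂ) = 0 := by simp [hl]
    rw [if_pos hl, if_pos hl']
    rw [one_div, one_div, inv_neg]
  · have hl' : ((-l : L.lattice) : ℂ) ≠ 0 := by simpa using hl
    rw [if_neg hl, if_neg hl']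
    have e : ((-l : L.lattice) : ℂ) = -(l : ℂ) := by simp
    rw [e]
    have h1 : -u - -(l : ℂ) = -(u - l) := by ring
    rw [h1]
    simp only [one_div, inv_neg, neg_sq, neg_div]
    ring

lemma zetaL_neg (u : ℂ) : zetaL L (-u) = - zetaL L u := by
  unfold zetaL
  rw [← (Equiv.neg L.lattice).tsum_eq, ← tsum_neg]
  refine tsum_congr fun l => ?_
  simpa using ztL_neg L u l

lemma isPreconnected_compl_lattice : IsPreconnected ((L.lattice : Set ℂ)ᶜ) := by
  refine (Set.Countable.isConnected_compl_of_one_lt_rank (by simp) ?_).2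
  exact (countable_of_Lindelof_of_discrete (X := L.lattice))

lemma add_mem_compl_lattice {x : ℂ} (hx : x ∈ ((L.lattice : Set ℂ)ᶜ)) (l : L.lattice) :
    x + l ∈ ((L.lattice : Set ℂ)ᶜ) := by
  intro h
  apply hx
  have := sub_mem h l.2
  simpa using this

lemma zetaL_add_gen (l : L.lattice) (hl : (l : ℂ) / 2 ∉ L.lattice) :
    Set.EqOn (fun u => zetaL L (u + l)) (fun u => zetaL L u + 2 * zetaL L ((l : ℂ) / 2))
      ((L.lattice : Set ℂ)ᶜ) := by
  have hx0 : -((l : ℂ) / 2) ∈ ((L.lattice : Set ℂ)ᶜ) := by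
    intro h
    apply hl
    have := neg_mem h
    simpa using this
  apply IsOpen.eqOn_of_deriv_eq (𝕜 := ℂ) (isOpen_compl_lattice L)
    (isPreconnected_compl_lattice L) ?_ ?_ ?_ hx0 ?_
  · refine (differentiableOn_zetaL L).comp (f := (· + (l : ℂ))) (by fun_prop) ?_
    intro x hx
    exact add_mem_compl_lattice L hx l
  · exact (differentiableOn_zetaL L).add (by fun_prop)
  · intro x hx
    simp only [deriv_add_const', deriv_comp_add_const]
    rw [eqOn_deriv_zetaL L (add_mem_compl_lattice L hx l), eqOn_deriv_zetaL L hx]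
    show -L.weierstrassP (x + l) = -L.weierstrassP x
    rw [L.weierstrassP_add_coe]
  · show zetaL L (-((l : ℂ) / 2) + l) = zetaL L (-((l : ℂ) / 2)) + 2 * zetaL L ((l : ℂ) / 2)
    have e : -((l : ℂ) / 2) + l = (l : ℂ) / 2 := by ring
    rw [e, zetaL_neg]
    ring


/-! ### The statement for the pair `(z, 1)` -/

lemma latPt_mem (z : ℂ) (hz : 0 < z.im) (v : Fin 2 → ℤ) : latPt z v ∈ (zpair z hz).lattice := by
  rw [← latEquiv_coe z hz v]
  exact (latEquiv z hz v).2

lemma mem_compl_of_forall (z : ℂ) (hz : 0 < z.im) (u : ℂ) (hu : ∀ v : Fin 2 → ℤ, u ≠ latPt z v) :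
    u ∈ (((zpair z hz).lattice : Set ℂ)ᶜ) := by
  intro h
  obtain ⟨v, hv⟩ := (latEquiv z hz).surjective ⟨u, h⟩
  apply hu v
  rw [← latEquiv_coe z hz v, hv]

lemma wzeta_add_z (z : ℂ) (hz : 0 < z.im) (u : ℂ) (hu : u ∈ (((zpair z hz).lattice : Set ℂ)ᶜ)) :
    wzeta z (u + z) = wzeta z u + etaZ z := by
  have h := zetaL_add_gen (zpair z hz) ⟨z, (zpair z hz).ω₁_mem_lattice⟩
    (zpair z hz).ω₁_div_two_notMem_lattice hu
  simp only at h
  unfold etaZ
  rw [wzeta_eq z hz, wzeta_eq z hz, wzeta_eq z hz]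
  exact h

lemma wzeta_add_one (z : ℂ) (hz : 0 < z.im) (u : ℂ)
    (hu : u ∈ (((zpair z hz).lattice : Set ℂ)ᶜ)) :
    wzeta z (u + 1) = wzeta z u + eta1 z := by
  have h := zetaL_add_gen (zpair z hz) ⟨1, (zpair z hz).ω₂_mem_lattice⟩
    (zpair z hz).ω₂_div_two_notMem_lattice hu
  simp only at h
  unfold eta1
  rw [wzeta_eq z hz, wzeta_eq z hz, wzeta_eq z hz]
  exact h

lemma z_mem (z : ℂ) (hz : 0 < z.im) : z ∈ (zpair z hz).lattice := (zpair z hz).ω₁_mem_lattice
lemma one_mem_lattice (z : ℂ) (hz : 0 < z.im) : (1 : ℂ) ∈ (zpair z hz).lattice :=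
  (zpair z hz).ω₂_mem_lattice

lemma int_mul_mem {ω : ℂ} (hω : ω ∈ L.lattice) (m : ℤ) : (m : ℂ) * ω ∈ L.lattice := by
  have := L.lattice.smul_mem m hω
  simpa using this

lemma add_int_mul_mem_compl {ω : ℂ} (hω : ω ∈ L.lattice) (m : ℤ) {u : ℂ}
    (hu : u ∈ ((L.lattice : Set ℂ)ᶜ)) : u + (m : ℂ) * ω ∈ ((L.lattice : Set ℂ)ᶜ) :=
  add_mem_compl_lattice L hu ⟨_, int_mul_mem L hω m⟩

lemma quasi_nat (f : ℂ → ℂ) (ω η : ℂ) (hω : ω ∈ L.lattice)
    (h : ∀ u ∈ ((L.lattice : Set ℂ)ᶜ), f (u + ω) = f u + η) (n : ℕ) :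
    ∀ u ∈ ((L.lattice : Set ℂ)ᶜ), f (u + (n : ℂ) * ω) = f u + (n : ℂ) * η := by
  induction n with
  | zero => intro u _; simp
  | succ k ih =>
    intro u hu
    have hk : u + (k : ℂ) * ω ∈ ((L.lattice : Set ℂ)ᶜ) := by
      have := add_int_mul_mem_compl L hω (k : ℤ) hu
      simpa using this
    have h1 := h (u + (k : ℂ) * ω) hk
    rw [ih u hu] at h1
    have e : u + ((k + 1 : ℕ) : ℂ) * ω = u + (k : ℂ) * ω + ω := by push_cast; ring
    rw [e, h1]
    push_cast
    ring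

lemma quasi_int (f : ℂ → ℂ) (ω η : ℂ) (hω : ω ∈ L.lattice)
    (h : ∀ u ∈ ((L.lattice : Set ℂ)ᶜ), f (u + ω) = f u + η) (m : ℤ) :
    ∀ u ∈ ((L.lattice : Set ℂ)ᶜ), f (u + (m : ℂ) * ω) = f u + (m : ℂ) * η := by
  intro u hu
  obtain ⟨n, rfl | rfl⟩ := m.eq_nat_or_neg
  · have := quasi_nat L f ω η hω h n u hu
    simpa using this
  · have hu' : u + ((-(n : ℤ) : ℤ) : ℂ) * ω ∈ ((L.lattice : Set ℂ)ᶜ) :=
      add_int_mul_mem_compl L hω _ hu
    have h1 := quasi_nat L f ω η hω h n _ hu'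
    have e : u + ((-(n : ℤ) : ℤ) : ℂ) * ω + (n : ℂ) * ω = u := by push_cast; ring
    rw [e] at h1
    rw [h1]
    push_cast
    ring

/-- (DS-2A2) quasi-periodicity of zeta. -/
theorem zetaQuasiPeriod : ZetaQuasiPeriodStatement := by
  intro z hz u hu w
  have hu' := mem_compl_of_forall z hz u hu
  have h1 : u + (w 0 : ℂ) * z ∈ (((zpair z hz).lattice : Set ℂ)ᶜ) :=
    add_int_mul_mem_compl (zpair z hz) (z_mem z hz) (w 0) hu'
  have hz' := quasi_int (zpair z hz) (wzeta z) z (etaZ z) (z_mem z hz)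
    (fun u hu => wzeta_add_z z hz u hu) (w 0) u hu'
  have h1' := quasi_int (zpair z hz) (wzeta z) 1 (eta1 z) (one_mem_lattice z hz)
    (fun u hu => wzeta_add_one z hz u hu) (w 1) _ h1
  have e : u + latPt z w = u + (w 0 : ℂ) * z + (w 1 : ℂ) * 1 := by
    unfold latPt; ring
  rw [e, h1', hz']

end Fermat.Agent.H80.DS
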