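/-
P-DS / DS-1a-A2 (helper80), row 514: `NebenProductStatement`.

The product of a weight-one cusp form on `Γ₁(N)` with nebentypus `χ` and a weight-one modular
form on `Γ₁(N)` with nebentypus `χ⁻¹` is a cusp form of weight two on `Γ₀(N)`.
-/
import Fermat.Agent.H6.DS.ConjInterfaces

set_option autoImplicit false

open UpperHalfPlane CongruenceSubgroup ModularFormClass
open scoped MatrixGroups ModularForm

namespace Fermat.Agent.H80.DS

open Fermat.Agent.H6.DS Fermat.Agent.H20.DS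

/-- For `γ ∈ Γ₀(N)` the lower right entry is a unit modulo `N`. -/
theorem isUnit_lowerRight_of_mem_Gamma0 {N : ℕ} (γ : SL(2, ℤ)) (hγ : γ ∈ Gamma0 N) :
    IsUnit ((((γ : Matrix (Fin 2) (Fin 2) ℤ) 1 1 : ℤ) : ZMod N)) := by
  rw [Gamma0_mem] at hγ
  have hdet : (γ : Matrix (Fin 2) (Fin 2) ℤ) 0 0 * (γ : Matrix (Fin 2) (Fin 2) ℤ) 1 1
      - (γ : Matrix (Fin 2) (Fin 2) ℤ) 0 1 * (γ : Matrix (Fin 2) (Fin 2) ℤ) 1 0 = 1 := by
    have := γ.det_coe
    rw [Matrix.det_fin_two] at this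
    exact this
  have h2 := congrArg (fun x : ℤ => (x : ZMod N)) hdet
  simp only [Int.cast_sub, Int.cast_mul, Int.cast_one] at h2
  rw [hγ, mul_zero, sub_zero] at h2
  exact IsUnit.of_mul_eq_one _ (by rw [mul_comm]; exact h2)

/-- Slash invariance of the product under `Γ₀(N)`. -/
theorem neben_mul_slash {N : ℕ} (χ : DirichletCharacter ℂ N) (f G : ℍ → ℂ)
    (hf : HasNebentypus 1 χ f) (hG : HasNebentypus 1 χ⁻¹ G)
    (γ : SL(2, ℤ)) (hγ : γ ∈ Gamma0 N) :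
    (f * G) ∣[(2 : ℤ)] γ = f * G := by
  have h2 : (2 : ℤ) = 1 + 1 := by norm_num
  rw [h2, ModularForm.mul_slash_SL2, hf γ hγ, hG γ hγ]
  have hu := isUnit_lowerRight_of_mem_Gamma0 γ hγ
  have hχ : χ ((((γ : Matrix (Fin 2) (Fin 2) ℤ) 1 1 : ℤ) : ZMod N)) *
      χ⁻¹ ((((γ : Matrix (Fin 2) (Fin 2) ℤ) 1 1 : ℤ) : ZMod N)) = 1 := by
    rw [← MulChar.mul_apply, mul_inv_cancel, MulChar.one_apply hu]
  ext z
  simp only [Pi.mul_apply, Pi.smul_apply, smul_eq_mul]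
  calc χ ((((γ : Matrix (Fin 2) (Fin 2) ℤ) 1 1 : ℤ) : ZMod N)) * f z *
        (χ⁻¹ ((((γ : Matrix (Fin 2) (Fin 2) ℤ) 1 1 : ℤ) : ZMod N)) * G z)
      = (χ ((((γ : Matrix (Fin 2) (Fin 2) ℤ) 1 1 : ℤ) : ZMod N)) *
          χ⁻¹ ((((γ : Matrix (Fin 2) (Fin 2) ℤ) 1 1 : ℤ) : ZMod N))) * (f z * G z) := by ring
    _ = f z * G z := by rw [hχ, one_mul]

/-- **DS-1a-A2.** -/
theorem nebenProduct : NebenProductStatement := by
  intro N _ χ f G hf hG
  -- the product as a cusp form of weight two on `Γ₁(N)`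
  let F1 : CuspForm (Gamma1 N) 2 := CuspForm.mcast (by norm_num) (f.mulModularForm G)
  have hF1 : (⇑F1 : ℍ → ℂ) = ⇑f * ⇑G := rfl
  refine ⟨{ toFun := ⇑F1
            slash_action_eq' := ?_
            holo' := F1.holo'
            zero_at_cusps' := ?_ }, fun z => ?_⟩
  · intro A hA
    obtain ⟨γ, hγ, rfl⟩ := Subgroup.mem_map.mp hA
    have := neben_mul_slash χ (⇑f) (⇑G) hf hG γ hγ
    rw [hF1]
    exact this
  · intro c hc
    rw [Subgroup.IsArithmetic.isCusp_iff_isCusp_SL2Z] at hc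
    have hc1 : IsCusp c (Gamma1 N : Subgroup (GL (Fin 2) ℝ)) := by
      rw [Subgroup.IsArithmetic.isCusp_iff_isCusp_SL2Z]
      exact hc
    exact F1.zero_at_cusps' hc1
  · show F1 z = f z * G z
    rw [show F1 z = (⇑F1 : ℍ → ℂ) z from rfl, hF1]
    rfl

end Fermat.Agent.H80.DS
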