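/-
P-DS / DS-1a-A5 (helper80, backup of row 517): `NebenDecompStatement` and the final
`ConjStatement` from `ConjNebenStatement`.

Decomposition of `S₁(Γ₁(N))` into nebentypus components by the diamond operators
`⟨d⟩ f = f ∣ γ_d` (`γ_d ∈ Γ₀(N)` with lower right entry `d`) and orthogonality of characters.
-/
import Fermat.Agent.H80.DS.NebenProduct

set_option autoImplicit false

open UpperHalfPlane CongruenceSubgroup ModularFormClass
open scoped MatrixGroups ModularForm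

namespace Fermat.Agent.H80.DS

open Fermat.Agent.H6.DS Fermat.Agent.H20.DS

variable {N : ℕ}

/-! ### Group theory of `Γ₁(N) ⊴ Γ₀(N)` -/

/-- `Γ₁(N)` is normalised by `Γ₀(N)`. -/
theorem conj_mem_Gamma1 (γ δ : SL(2, ℤ)) (hγ : γ ∈ Gamma0 N) (hδ : δ ∈ Gamma1 N) :
    γ * δ * γ⁻¹ ∈ Gamma1 N := by
  have hδ0 : δ ∈ Gamma0 N := Gamma1_in_Gamma0 N hδ
  have hδ' : (⟨δ, hδ0⟩ : Gamma0 N) ∈ Gamma1' N := by
    rw [Gamma1_to_Gamma0_mem]
    exact (Gamma1_mem N δ).mp hδ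
  have hconj : (⟨γ, hγ⟩ : Gamma0 N) * ⟨δ, hδ0⟩ * (⟨γ, hγ⟩ : Gamma0 N)⁻¹ ∈ Gamma1' N :=
    (Gamma0Map N).normal_ker.conj_mem _ hδ' _
  rw [Gamma1_to_Gamma0_mem] at hconj
  exact (Gamma1_mem N _).mpr hconj

/-- An element of `Γ₀(N)` with lower right entry `≡ 1` lies in `Γ₁(N)`. -/
theorem mem_Gamma1_of_lowerRight (γ : SL(2, ℤ)) (hγ : γ ∈ Gamma0 N)
    (h : (((γ : Matrix (Fin 2) (Fin 2) ℤ) 1 1 : ℤ) : ZMod N) = 1) : γ ∈ Gamma1 N := by
  have h' : (⟨γ, hγ⟩ : Gamma0 N) ∈ Gamma1' N := by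
    rw [Gamma1_mem']
    exact h
  rw [Gamma1_to_Gamma0_mem] at h'
  exact (Gamma1_mem N _).mpr h'

/-- The lower right entry is multiplicative on `Γ₀(N)`. -/
theorem lowerRight_mul (γ γ' : SL(2, ℤ)) (hγ : γ ∈ Gamma0 N) (hγ' : γ' ∈ Gamma0 N) :
    ((((γ * γ' : SL(2, ℤ)) : Matrix (Fin 2) (Fin 2) ℤ) 1 1 : ℤ) : ZMod N) =
      (((γ : Matrix (Fin 2) (Fin 2) ℤ) 1 1 : ℤ) : ZMod N) *
        (((γ' : Matrix (Fin 2) (Fin 2) ℤ) 1 1 : ℤ) : ZMod N) :=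
  (Gamma0Map N).map_mul ⟨γ, hγ⟩ ⟨γ', hγ'⟩

/-- Two elements of `Γ₀(N)` with the same lower right entry differ by an element of `Γ₁(N)`. -/
theorem mul_inv_mem_Gamma1 (γ γ' : SL(2, ℤ)) (hγ : γ ∈ Gamma0 N) (hγ' : γ' ∈ Gamma0 N)
    (h : (((γ : Matrix (Fin 2) (Fin 2) ℤ) 1 1 : ℤ) : ZMod N) =
      (((γ' : Matrix (Fin 2) (Fin 2) ℤ) 1 1 : ℤ) : ZMod N)) :
    γ * γ'⁻¹ ∈ Gamma1 N := by
  have hmem : γ * γ'⁻¹ ∈ Gamma0 N := (Gamma0 N).mul_mem hγ ((Gamma0 N).inv_mem hγ')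
  refine mem_Gamma1_of_lowerRight _ hmem ?_
  have hu := isUnit_lowerRight_of_mem_Gamma0 γ' hγ'
  have h1 := lowerRight_mul (γ * γ'⁻¹) γ' hmem hγ'
  rw [inv_mul_cancel_right, h] at h1
  -- `u = x * u` with `u` a unit
  have h2 : (1 : ZMod N) * (((γ' : Matrix (Fin 2) (Fin 2) ℤ) 1 1 : ℤ) : ZMod N) =
      ((((γ * γ'⁻¹ : SL(2, ℤ)) : Matrix (Fin 2) (Fin 2) ℤ) 1 1 : ℤ) : ZMod N) *
        (((γ' : Matrix (Fin 2) (Fin 2) ℤ) 1 1 : ℤ) : ZMod N) := by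
    rw [one_mul]; exact h1
  exact (hu.mul_left_inj.mp h2).symm

/-- For every unit `d` modulo `N` there is an element of `Γ₀(N)` with lower right entry `d`. -/
theorem exists_Gamma0_lowerRight [NeZero N] (d : (ZMod N)ˣ) :
    ∃ γ : SL(2, ℤ), γ ∈ Gamma0 N ∧
      (((γ : Matrix (Fin 2) (Fin 2) ℤ) 1 1 : ℤ) : ZMod N) = (d : ZMod N) := by
  have hcop : Nat.Coprime (d : ZMod N).val N := ZMod.val_coe_unit_coprime d
  have hcop' : IsCoprime (((d : ZMod N).val : ℕ) : ℤ) (N : ℤ) := Nat.isCoprime_iff_coprime.mpr hcop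
  obtain ⟨a, b, hab⟩ := hcop'
  have hdet : (!![a, -b; (N : ℤ), (((d : ZMod N).val : ℕ) : ℤ)] :
      Matrix (Fin 2) (Fin 2) ℤ).det = 1 := by
    rw [Matrix.det_fin_two_of]
    linear_combination hab
  let γ : SL(2, ℤ) := ⟨!![a, -b; (N : ℤ), (((d : ZMod N).val : ℕ) : ℤ)], hdet⟩
  refine ⟨γ, ?_, ?_⟩
  · rw [Gamma0_mem]
    show (((N : ℤ)) : ZMod N) = 0
    simp
  · show (((((d : ZMod N).val : ℕ) : ℤ)) : ZMod N) = (d : ZMod N)
    simp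

/-! ### Cusp conditions -/

/-- Every `SL(2, ℤ)`-translate of a cusp form on `Γ₁(N)` vanishes at infinity. -/
theorem isZeroAtImInfty_slash_all [NeZero N] (f : CuspForm (Gamma1 N) 1) (γ : SL(2, ℤ)) :
    IsZeroAtImInfty ((⇑f : ℍ → ℂ) ∣[(1 : ℤ)] γ) := by
  have hc : IsCusp (Matrix.SpecialLinearGroup.mapGL ℝ γ • (OnePoint.infty : OnePoint ℝ)) 𝒮ℒ :=
    isCusp_SL2Z_iff'.mpr ⟨γ, rfl⟩
  have hc1 : IsCusp (Matrix.SpecialLinearGroup.mapGL ℝ γ • (OnePoint.infty : OnePoint ℝ))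
      (Gamma1 N : Subgroup (GL (Fin 2) ℝ)) := by
    rw [Subgroup.IsArithmetic.isCusp_iff_isCusp_SL2Z]
    exact hc
  exact (OnePoint.isZeroAt_iff_forall_SL2Z hc).mp (f.zero_at_cusps' hc1) γ rfl

/-! ### Diamond operators -/

/-- Slashing with an element of `Γ₁(N)` does nothing. -/
theorem slash_Gamma1 (f : CuspForm (Gamma1 N) 1) (δ : SL(2, ℤ)) (hδ : δ ∈ Gamma1 N) :
    (⇑f : ℍ → ℂ) ∣[(1 : ℤ)] δ = ⇑f :=
  f.slash_action_eq' _ (Subgroup.mem_map_of_mem _ hδ)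

/-- The slash by an element of `Γ₀(N)` only depends on the lower right entry modulo `N`. -/
theorem slash_eq_of_lowerRight_eq (f : CuspForm (Gamma1 N) 1) (γ γ' : SL(2, ℤ))
    (hγ : γ ∈ Gamma0 N) (hγ' : γ' ∈ Gamma0 N)
    (h : (((γ : Matrix (Fin 2) (Fin 2) ℤ) 1 1 : ℤ) : ZMod N) =
      (((γ' : Matrix (Fin 2) (Fin 2) ℤ) 1 1 : ℤ) : ZMod N)) :
    (⇑f : ℍ → ℂ) ∣[(1 : ℤ)] γ = (⇑f : ℍ → ℂ) ∣[(1 : ℤ)] γ' := by
  have hmem := mul_inv_mem_Gamma1 γ γ' hγ hγ' h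
  have hγeq : γ = (γ * γ'⁻¹) * γ' := by rw [inv_mul_cancel_right]
  conv_lhs => rw [hγeq]
  rw [SlashAction.slash_mul, slash_Gamma1 f _ hmem]

/-- The translate of a cusp form on `Γ₁(N)` by an element of `Γ₀(N)`. -/
noncomputable def diamondForm [NeZero N] (γ : SL(2, ℤ)) (hγ : γ ∈ Gamma0 N)
    (f : CuspForm (Gamma1 N) 1) : CuspForm (Gamma1 N) 1 where
  toFun := (⇑f : ℍ → ℂ) ∣[(1 : ℤ)] γ
  slash_action_eq' := by
    intro A hA
    obtain ⟨δ, hδ, rfl⟩ := Subgroup.mem_map.mp hA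
    show ((⇑f : ℍ → ℂ) ∣[(1 : ℤ)] γ) ∣[(1 : ℤ)] δ = (⇑f : ℍ → ℂ) ∣[(1 : ℤ)] γ
    rw [← SlashAction.slash_mul]
    have hmem : γ * δ ∈ Gamma0 N := (Gamma0 N).mul_mem hγ (Gamma1_in_Gamma0 N hδ)
    refine slash_eq_of_lowerRight_eq f _ _ hmem hγ ?_
    rw [lowerRight_mul γ δ hγ (Gamma1_in_Gamma0 N hδ), ((Gamma1_mem N δ).mp hδ).2.1, mul_one]
  holo' := (CuspFormClass.holo f).slash 1 (Matrix.SpecialLinearGroup.mapGL ℝ γ)
  zero_at_cusps' := by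
    intro c hc
    rw [Subgroup.IsArithmetic.isCusp_iff_isCusp_SL2Z] at hc
    rw [OnePoint.isZeroAt_iff_forall_SL2Z hc]
    intro δ _
    rw [← SlashAction.slash_mul]
    exact isZeroAtImInfty_slash_all f (γ * δ)

theorem coe_diamondForm [NeZero N] (γ : SL(2, ℤ)) (hγ : γ ∈ Gamma0 N)
    (f : CuspForm (Gamma1 N) 1) :
    (⇑(diamondForm γ hγ f) : ℍ → ℂ) = (⇑f : ℍ → ℂ) ∣[(1 : ℤ)] γ := rfl

/-- A chosen element of `Γ₀(N)` with lower right entry `d`. -/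
noncomputable def gammaOf [NeZero N] (d : (ZMod N)ˣ) : SL(2, ℤ) :=
  (exists_Gamma0_lowerRight d).choose

theorem gammaOf_mem [NeZero N] (d : (ZMod N)ˣ) : gammaOf d ∈ Gamma0 N :=
  (exists_Gamma0_lowerRight d).choose_spec.1

theorem gammaOf_lowerRight [NeZero N] (d : (ZMod N)ˣ) :
    ((((gammaOf d : SL(2, ℤ)) : Matrix (Fin 2) (Fin 2) ℤ) 1 1 : ℤ) : ZMod N) = (d : ZMod N) :=
  (exists_Gamma0_lowerRight d).choose_spec.2

/-- The diamond operator `⟨d⟩`. -/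
noncomputable def diamondOp [NeZero N] (d : (ZMod N)ˣ) (f : CuspForm (Gamma1 N) 1) :
    CuspForm (Gamma1 N) 1 :=
  diamondForm (gammaOf d) (gammaOf_mem d) f

theorem coe_diamondOp [NeZero N] (d : (ZMod N)ˣ) (f : CuspForm (Gamma1 N) 1) :
    (⇑(diamondOp d f) : ℍ → ℂ) = (⇑f : ℍ → ℂ) ∣[(1 : ℤ)] (gammaOf d) := rfl

theorem diamondOp_one [NeZero N] (f : CuspForm (Gamma1 N) 1) : diamondOp (1 : (ZMod N)ˣ) f = f := by
  apply DFunLike.coe_injective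
  rw [coe_diamondOp]
  refine slash_Gamma1 f _ (mem_Gamma1_of_lowerRight _ (gammaOf_mem 1) ?_)
  rw [gammaOf_lowerRight]
  simp

/-- `(⟨d⟩ f) ∣ γ = ⟨d u⟩ f` for `γ ∈ Γ₀(N)` with lower right entry `u`. -/
theorem diamondOp_slash [NeZero N] (d u : (ZMod N)ˣ) (f : CuspForm (Gamma1 N) 1)
    (γ : SL(2, ℤ)) (hγ : γ ∈ Gamma0 N)
    (hu : (((γ : Matrix (Fin 2) (Fin 2) ℤ) 1 1 : ℤ) : ZMod N) = (u : ZMod N)) :
    (⇑(diamondOp d f) : ℍ → ℂ) ∣[(1 : ℤ)] γ = ⇑(diamondOp (d * u) f) := by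
  rw [coe_diamondOp, coe_diamondOp, ← SlashAction.slash_mul]
  have hmem : gammaOf d * γ ∈ Gamma0 N := (Gamma0 N).mul_mem (gammaOf_mem d) hγ
  refine slash_eq_of_lowerRight_eq f _ _ hmem (gammaOf_mem (d * u)) ?_
  rw [lowerRight_mul _ _ (gammaOf_mem d) hγ, gammaOf_lowerRight, gammaOf_lowerRight, hu]
  simp

/-! ### Linear algebra of cusp forms -/

theorem coe_add_cuspForm (F G : CuspForm (Gamma1 N) 1) :
    (⇑(F + G) : ℍ → ℂ) = ⇑F + ⇑G := rfl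

theorem coe_smul_cuspForm (c : ℂ) (F : CuspForm (Gamma1 N) 1) :
    (⇑(c • F) : ℍ → ℂ) = c • (⇑F : ℍ → ℂ) := rfl

theorem coe_zero_cuspForm : (⇑(0 : CuspForm (Gamma1 N) 1) : ℍ → ℂ) = 0 := rfl

theorem coe_sum_cuspForm {ι : Type*} (s : Finset ι) (F : ι → CuspForm (Gamma1 N) 1) :
    (⇑(∑ i ∈ s, F i) : ℍ → ℂ) = ∑ i ∈ s, (⇑(F i) : ℍ → ℂ) := by
  classical
  induction s using Finset.induction_on with
  | empty => simp
  | insert a s ha ih => rw [Finset.sum_insert ha, Finset.sum_insert ha, coe_add_cuspForm, ih]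

/-- The `q`-expansion as an additive map on `S₁(Γ₁(N))`. -/
noncomputable def qExpAddHom (N : ℕ) : CuspForm (Gamma1 N) 1 →+ PowerSeries ℂ where
  toFun f := qExpansion 1 (⇑f : ℍ → ℂ)
  map_zero' := by
    show qExpansion 1 (⇑(0 : CuspForm (Gamma1 N) 1) : ℍ → ℂ) = 0
    rw [coe_zero_cuspForm]
    exact qExpansion_zero 1
  map_add' f g := by
    show qExpansion 1 (⇑(f + g) : ℍ → ℂ) = _
    rw [coe_add_cuspForm]
    exact ModularForm.qExpansion_add one_pos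
      (by rw [strictPeriods_Gamma1]; exact AddSubgroup.mem_zmultiples 1) f g

theorem qCoeff_eq_qExpAddHom (f : CuspForm (Gamma1 N) 1) (n : ℕ) :
    qCoeff (⇑f) n = (qExpAddHom N f).coeff n := rfl

theorem qCoeff_sum_cuspForm {ι : Type*} (s : Finset ι) (F : ι → CuspForm (Gamma1 N) 1) (n : ℕ) :
    qCoeff (⇑(∑ i ∈ s, F i)) n = ∑ i ∈ s, qCoeff (⇑(F i)) n := by
  simp only [qCoeff_eq_qExpAddHom, map_sum]

/-! ### Nebentypus components -/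

/-- The `χ`-component of `f`. -/
noncomputable def nebenComponent [NeZero N] (f : CuspForm (Gamma1 N) 1)
    (χ : DirichletCharacter ℂ N) : CuspForm (Gamma1 N) 1 :=
  ((N.totient : ℂ)⁻¹) • ∑ d : (ZMod N)ˣ, (χ⁻¹ (d : ZMod N)) • diamondOp d f

theorem char_mul_inv_unit (χ : DirichletCharacter ℂ N) (u : (ZMod N)ˣ) :
    χ (u : ZMod N) * χ⁻¹ (u : ZMod N) = 1 := by
  rw [← MulChar.mul_apply, mul_inv_cancel, MulChar.one_apply u.isUnit]

theorem nebenComponent_hasNebentypus [NeZero N] (f : CuspForm (Gamma1 N) 1)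
    (χ : DirichletCharacter ℂ N) : HasNebentypus 1 χ (⇑(nebenComponent f χ)) := by
  intro γ hγ
  obtain ⟨u, hu⟩ := isUnit_lowerRight_of_mem_Gamma0 γ hγ
  rw [← hu]
  have hcoe : (⇑(nebenComponent f χ) : ℍ → ℂ) =
      ((N.totient : ℂ)⁻¹) • ∑ d : (ZMod N)ˣ, (χ⁻¹ (d : ZMod N)) • (⇑(diamondOp d f) : ℍ → ℂ) := by
    rw [nebenComponent, coe_smul_cuspForm, coe_sum_cuspForm]
    rfl
  have hstep : ∀ d : (ZMod N)ˣ,
      ((χ⁻¹ (d : ZMod N)) • (⇑(diamondOp d f) : ℍ → ℂ)) ∣[(1 : ℤ)] γ =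
        χ (u : ZMod N) • ((χ⁻¹ ((d * u : (ZMod N)ˣ) : ZMod N)) •
          (⇑(diamondOp (d * u) f) : ℍ → ℂ)) := by
    intro d
    rw [ModularForm.SL_smul_slash, diamondOp_slash d u f γ hγ hu.symm, smul_smul]
    congr 1
    rw [Units.val_mul, map_mul, mul_comm (χ⁻¹ (d : ZMod N)), ← mul_assoc, char_mul_inv_unit,
      one_mul]
  have hsum : ∑ d : (ZMod N)ˣ, (χ⁻¹ ((d * u : (ZMod N)ˣ) : ZMod N)) •
      (⇑(diamondOp (d * u) f) : ℍ → ℂ) =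
      ∑ d : (ZMod N)ˣ, (χ⁻¹ (d : ZMod N)) • (⇑(diamondOp d f) : ℍ → ℂ) :=
    Fintype.sum_equiv (Equiv.mulRight u) _ _ (fun d => rfl)
  rw [hcoe, ModularForm.SL_smul_slash, SlashAction.sum_slash,
    Finset.sum_congr rfl (fun d _ => hstep d), ← Finset.smul_sum, hsum, smul_comm]

theorem sum_inv_char [NeZero N] (d : (ZMod N)ˣ) :
    ∑ χ : DirichletCharacter ℂ N, χ⁻¹ (d : ZMod N) = if d = 1 then (N.totient : ℂ) else 0 := by
  have h1 : ∑ χ : DirichletCharacter ℂ N, χ⁻¹ (d : ZMod N) =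
      ∑ χ : DirichletCharacter ℂ N, χ (d : ZMod N) :=
    Fintype.sum_equiv (Equiv.inv _) _ _ (fun χ => rfl)
  rw [h1, DirichletCharacter.sum_characters_eq]
  by_cases hd : d = 1
  · simp [hd]
  · have : (d : ZMod N) ≠ 1 := fun h => hd (Units.ext h)
    simp [hd, this]

theorem sum_nebenComponent [NeZero N] (f : CuspForm (Gamma1 N) 1) :
    ∑ χ : DirichletCharacter ℂ N, nebenComponent f χ = f := by
  have hφ : (N.totient : ℂ) ≠ 0 := by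
    have : 0 < N.totient := Nat.totient_pos.mpr (Nat.pos_of_ne_zero (NeZero.ne N))
    exact_mod_cast this.ne'
  simp only [nebenComponent]
  rw [← Finset.smul_sum, Finset.sum_comm]
  simp only [← Finset.sum_smul, sum_inv_char]
  rw [Finset.sum_eq_single (1 : (ZMod N)ˣ)]
  · rw [if_pos rfl, diamondOp_one, smul_smul, inv_mul_cancel₀ hφ, one_smul]
  · intro d _ hd
    rw [if_neg hd, zero_smul]
  · intro h
    exact absurd (Finset.mem_univ _) h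

/-- **DS-1a-A5.** Decomposition of `S₁(Γ₁(N))` into nebentypus components. -/
theorem nebenDecomp : NebenDecompStatement := by
  intro N _ f
  refine ⟨Finset.univ, nebenComponent f, fun χ _ => nebenComponent_hasNebentypus f χ,
    fun n => ?_⟩
  rw [← qCoeff_sum_cuspForm, sum_nebenComponent]

/-- **DS-1a, final.** `ConjStatement` from `ConjNebenStatement` and the decomposition. -/
theorem conjStatement_of_conjNeben (hN : ConjNebenStatement) (hD : NebenDecompStatement) :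
    ConjStatement := by
  intro N _ f σ
  obtain ⟨s, g, hg, hsum⟩ := hD N f
  choose! g' hg' using fun χ (hχ : χ ∈ s) => hN N χ (g χ) (hg χ hχ) σ
  refine ⟨∑ χ ∈ s, g' χ, fun n => ?_⟩
  rw [qCoeff_sum_cuspForm, hsum n, map_sum]
  exact Finset.sum_congr rfl (fun χ hχ => hg' χ hχ n)

/-- `ConjStatement` from `ConjNebenStatement` alone. -/
theorem conjStatement_of_conjNeben' (hN : ConjNebenStatement) : ConjStatement :=
  conjStatement_of_conjNeben hN nebenDecomp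

end Fermat.Agent.H80.DS
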